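import Mathlib

/-!
# Semilinear maps and pairings of invertible modules with spanning image

Such a map is universal (`exists_lift`), unique up to isomorphism (`exists_equiv`) and injective
over an injective ring map (`injective_of_span`); a spanning pairing of invertible modules is
their tensor product (`exists_pairEquiv`, `exists_pairLiftₛₗ`), and evaluation spans
(`span_contract`).
-/

set_option autoImplicit false
set_option linter.style.haveILetI false
set_option linter.unusedSectionVars false

noncomputable section

open TensorProduct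

namespace FLTAgent.JacRep.Invert

universe u

section Semilinear

variable {B B' : Type u} [CommRing B] [CommRing B'] {μ : B →+* B'} {M M' N : Type u} [AddCommGroup M]
  [AddCommGroup M'] [AddCommGroup N] [Module B M] [Module B' M'] [Module B' N]

/-- A semilinear map with spanning image maps the span of a set to the span of its image. -/
theorem map_mem_span (f : M →ₛₗ[μ] M') {s : Set M} {m : M} (hm : m ∈ Submodule.span B s) :
    f m ∈ Submodule.span B' (f '' s) := by
  induction hm using Submodule.span_induction with
  | mem z hz => exact Submodule.subset_span ⟨z, hz, rfl⟩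
  | zero => rw [map_zero]; exact zero_mem _
  | add a b _ _ ha hb => rw [map_add]; exact add_mem ha hb
  | smul r a _ ha => rw [LinearMap.map_smulₛₗ]; exact Submodule.smul_mem _ _ ha

/-- The composite of maps with spanning image has spanning image. -/
theorem span_range_comp {ι : Type*} (g : ι → M) (hg : Submodule.span B (Set.range g) = ⊤)
    (f : M →ₛₗ[μ] M') (hf : Submodule.span B' (Set.range f) = ⊤) :
    Submodule.span B' (Set.range fun i => f (g i)) = ⊤ := by
  rw [eq_top_iff, ← hf, Submodule.span_le]
  rintro _ ⟨m, rfl⟩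
  have hm : m ∈ Submodule.span B (Set.range g) := hg ▸ Submodule.mem_top
  have h := map_mem_span f hm
  rwa [← Set.range_comp] at h

theorem ext_of_span {f g : M' →ₗ[B'] N} {ι : Type*} {p : ι → M'}
    (hp : Submodule.span B' (Set.range p) = ⊤) (h : ∀ i, f (p i) = g (p i)) : f = g :=
  LinearMap.ext_on_range hp h

theorem surjective_of_span (f : M' →ₗ[B'] N) {ι : Type*} {p : ι → N}
    (hp : Submodule.span B' (Set.range p) = ⊤) (h : ∀ i, p i ∈ LinearMap.range f) :
    Function.Surjective f := by
  rw [← LinearMap.range_eq_top, eq_top_iff, ← hp, Submodule.span_le]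
  rintro _ ⟨i, rfl⟩
  exact h i

theorem surjective_of_one_mem {R : Type u} [CommRing R] {σ : B →+* R} (hσ : Function.Surjective σ)
    (f : M →ₛₗ[σ] R) {m : M} (hm : f m = 1) : Function.Surjective f := fun r => by
  obtain ⟨b, rfl⟩ := hσ r
  exact ⟨b • m, by rw [LinearMap.map_smulₛₗ, hm, smul_eq_mul, mul_one]⟩

variable [Module.Invertible B M] [Module.Invertible B' M']

/-- A semilinear map with spanning image between invertible modules is universal. -/
theorem exists_lift (f : M →ₛₗ[μ] M') (hf : Submodule.span B' (Set.range f) = ⊤)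
    (h : M →ₛₗ[μ] N) : ∃ g : M' →ₗ[B'] N, ∀ a, g (f a) = h a := by
  letI : Algebra B B' := μ.toAlgebra
  letI : Module B M' := Module.compHom M' μ
  letI : Module B N := Module.compHom N μ
  haveI : IsScalarTower B B' M' := IsScalarTower.of_algebraMap_smul fun _ _ => rfl
  haveI : IsScalarTower B B' N := IsScalarTower.of_algebraMap_smul fun _ _ => rfl
  let fL : M →ₗ[B] M' := { toFun := f, map_add' := map_add f, map_smul' := f.map_smulₛₗ }
  let hL : M →ₗ[B] N := { toFun := h, map_add' := map_add h, map_smul' := h.map_smulₛₗ }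
  have hsurj : Function.Surjective (fL.liftBaseChange B') :=
    surjective_of_span _ hf fun a => ⟨1 ⊗ₜ a, by rw [LinearMap.liftBaseChange_tmul, one_smul]; rfl⟩
  let e := LinearEquiv.ofBijective _ (Module.Invertible.bijective_of_surjective hsurj)
  refine ⟨(hL.liftBaseChange B').comp e.symm.toLinearMap, fun a => ?_⟩
  have : e.symm (f a) = 1 ⊗ₜ a := by
    rw [LinearEquiv.symm_apply_eq]
    show f a = fL.liftBaseChange B' (1 ⊗ₜ a)
    rw [LinearMap.liftBaseChange_tmul, one_smul]
    rfl
  rw [LinearMap.comp_apply, LinearEquiv.coe_coe, this, LinearMap.liftBaseChange_tmul, one_smul]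
  rfl

/-- Two semilinear maps with spanning image between invertible modules differ by an isomorphism. -/
theorem exists_equiv [Module.Invertible B' N] (f : M →ₛₗ[μ] M')
    (hf : Submodule.span B' (Set.range f) = ⊤) (h : M →ₛₗ[μ] N)
    (hh : Submodule.span B' (Set.range h) = ⊤) : ∃ e : M' ≃ₗ[B'] N, ∀ a, e (f a) = h a := by
  obtain ⟨g, hg⟩ := exists_lift f hf h
  exact ⟨LinearEquiv.ofBijective g (Module.Invertible.bijective_of_surjective
    (surjective_of_span g hh fun a => ⟨f a, hg a⟩)), hg⟩

/-- If `μ` is injective, a semilinear map with spanning image between invertible modules is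
injective. -/
theorem injective_of_span (hμ : Function.Injective μ) (f : M →ₛₗ[μ] M')
    (hf : Submodule.span B' (Set.range f) = ⊤) : Function.Injective f := by
  letI : Algebra B B' := μ.toAlgebra
  letI : Module B M' := Module.compHom M' μ
  haveI : IsScalarTower B B' M' := IsScalarTower.of_algebraMap_smul fun _ _ => rfl
  let fL : M →ₗ[B] M' := { toFun := f, map_add' := map_add f, map_smul' := f.map_smulₛₗ }
  have hsurj : Function.Surjective (fL.liftBaseChange B') :=
    surjective_of_span _ hf fun a => ⟨1 ⊗ₜ a, by rw [LinearMap.liftBaseChange_tmul, one_smul]; rfl⟩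
  have hbij := Module.Invertible.bijective_of_surjective hsurj
  have hmk : Function.Injective fun a : M => (1 : B') ⊗ₜ[B] a := by
    have h1 : Function.Injective ((Algebra.linearMap B B').rTensor M) :=
      Module.Flat.rTensor_preserves_injective_linearMap _ hμ
    have h2 : (fun a : M => (1 : B') ⊗ₜ[B] a) =
        (Algebra.linearMap B B').rTensor M ∘ (TensorProduct.lid B M).symm := by
      funext a
      simp
    rw [h2]
    exact h1.comp (LinearEquiv.injective _)
  intro a b hab
  refine hmk (hbij.1 ?_)
  simp only [LinearMap.liftBaseChange_tmul, one_smul]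
  exact hab

end Semilinear

section Pairing

variable {B : Type u} [CommRing B] {M M' P N : Type u} [AddCommGroup M] [AddCommGroup M']
  [AddCommGroup P] [AddCommGroup N] [Module B M] [Module B M'] [Module B P] [Module B N]
  [Module.Invertible B M] [Module.Invertible B M'] [Module.Invertible B P]

theorem span_pair (μ : M →ₗ[B] M' →ₗ[B] P) :
    Submodule.span B {z | ∃ a b, μ a b = z} = LinearMap.range (TensorProduct.lift μ) := by
  refine le_antisymm (Submodule.span_le.2 ?_) ?_
  · rintro _ ⟨a, b, rfl⟩
    exact ⟨a ⊗ₜ b, TensorProduct.lift.tmul a b⟩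
  · rintro _ ⟨t, rfl⟩
    induction t using TensorProduct.induction_on with
    | zero => rw [map_zero]; exact zero_mem _
    | tmul a b => rw [TensorProduct.lift.tmul]; exact Submodule.subset_span ⟨a, b, rfl⟩
    | add u v hu hv => rw [map_add]; exact add_mem hu hv

/-- A spanning pairing of invertible modules is the tensor product. -/
theorem exists_pairEquiv (μ : M →ₗ[B] M' →ₗ[B] P)
    (hμ : Submodule.span B {z | ∃ a b, μ a b = z} = ⊤) :
    ∃ e : M ⊗[B] M' ≃ₗ[B] P, ∀ a b, e (a ⊗ₜ b) = μ a b :=
  ⟨LinearEquiv.ofBijective (TensorProduct.lift μ) (Module.Invertible.bijective_of_surjective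
    (LinearMap.range_eq_top.1 ((span_pair μ).symm.trans hμ))), fun a b => TensorProduct.lift.tmul a b⟩

theorem exists_pairLift (μ : M →ₗ[B] M' →ₗ[B] P)
    (hμ : Submodule.span B {z | ∃ a b, μ a b = z} = ⊤) (ν : M →ₗ[B] M' →ₗ[B] N) :
    ∃ g : P →ₗ[B] N, ∀ a b, g (μ a b) = ν a b := by
  obtain ⟨e, he⟩ := exists_pairEquiv μ hμ
  refine ⟨(TensorProduct.lift ν).comp e.symm.toLinearMap, fun a b => ?_⟩
  rw [LinearMap.comp_apply, LinearEquiv.coe_coe, ← he, e.symm_apply_apply, TensorProduct.lift.tmul]

variable {B' : Type u} [CommRing B'] {σ : B →+* B'} {Q : Type u} [AddCommGroup Q] [Module B' Q]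

/-- Semilinear pairings factor through a spanning pairing. -/
theorem exists_pairLiftₛₗ (μ : M →ₗ[B] M' →ₗ[B] P)
    (hμ : Submodule.span B {z | ∃ a b, μ a b = z} = ⊤) (ν : M → M' → Q)
    (h₁ : ∀ a a' b, ν (a + a') b = ν a b + ν a' b)
    (h₂ : ∀ (r : B) a b, ν (r • a) b = σ r • ν a b)
    (h₃ : ∀ a b b', ν a (b + b') = ν a b + ν a b')
    (h₄ : ∀ (r : B) a b, ν a (r • b) = σ r • ν a b) :
    ∃ g : P →ₛₗ[σ] Q, ∀ a b, g (μ a b) = ν a b := by
  letI : Module B Q := Module.compHom Q σ
  obtain ⟨g, hg⟩ := exists_pairLift μ hμ (LinearMap.mk₂ B ν h₁ h₂ h₃ h₄)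
  exact ⟨{ toFun := g, map_add' := map_add g, map_smul' := fun r a => map_smul g r a },
    fun a b => hg a b⟩

end Pairing

section Dual

variable {B : Type u} [CommRing B] {M : Type u} [AddCommGroup M] [Module B M]

/-- A finite projective module has a dual basis. -/
theorem exists_dualBasis [Module.Finite B M] [Module.Projective B M] :
    ∃ (n : ℕ) (m : Fin n → M) (l : Fin n → Module.Dual B M), ∀ a, ∑ i, l i a • m i = a := by
  classical
  obtain ⟨n, π, hπ⟩ := Module.Finite.exists_fin' B M
  obtain ⟨j, hj⟩ := Module.projective_lifting_property π LinearMap.id hπ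
  refine ⟨n, fun i => π (Pi.single i 1), fun i => (LinearMap.proj i).comp j, fun a => ?_⟩
  conv_rhs => rw [← LinearMap.id_apply (R := B) a, ← hj, LinearMap.comp_apply,
    ← Finset.univ_sum_single (j a), map_sum]
  refine Finset.sum_congr rfl fun i _ => ?_
  rw [LinearMap.comp_apply, LinearMap.proj_apply, ← map_smul, ← Pi.single_smul, smul_eq_mul, mul_one]

/-- The evaluation pairing of an invertible module spans the ring. -/
theorem span_contract [Module.Invertible B M] :
    Submodule.span B {z | ∃ (a : M) (f : Module.Dual B M), f a = z} = ⊤ := by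
  rw [eq_top_iff]
  rintro r -
  obtain ⟨t, rfl⟩ := (Module.Invertible.linearEquiv B M).surjective r
  induction t using TensorProduct.induction_on with
  | zero => rw [map_zero]; exact zero_mem _
  | tmul f a => exact Submodule.subset_span ⟨a, f, rfl⟩
  | add u v hu hv => rw [map_add]; exact add_mem hu hv

end Dual

end FLTAgent.JacRep.Invert
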