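import Fermat.Agent.JacRep.Defs
import Fermat.Agent.JacRep.Ops.Semilin

/-!
# The restrictions of the curve over a base, bundles from spanning restrictions

The restriction maps `resB₀`, `resB₁` over a base are injective with spanning images and commute
with change of base; `ofSpan` builds a bundle from invertible modules and restrictions with
spanning images, and maps defined on the charts have spanning images on the overlaps
(`span_of_compat`, `span_pair_of_compat`).
-/

set_option autoImplicit false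
set_option linter.style.haveILetI false
set_option linter.unusedSectionVars false

noncomputable section

open TensorProduct

universe u

namespace FLTAgent.JacRep

open Invert

variable {k : Type u} [Field k]

section Restriction

variable {A₀ A : Type u} [CommRing A₀] [CommRing A] [Algebra k A₀] [Algebra k A] (res : A₀ →ₐ[k] A)
  (x : A₀) (R : Type u) [CommRing R] [Algebra k R]

theorem exists_pow_mul_map (h : letI := res.toRingHom.toAlgebra; IsLocalization.Away x A)
    (z : R ⊗[k] A) : ∃ (n : ℕ) (a : R ⊗[k] A₀),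
      Algebra.TensorProduct.map (AlgHom.id k R) res ((1 : R) ⊗ₜ x) ^ n * z =
        Algebra.TensorProduct.map (AlgHom.id k R) res a := by
  letI := res.toRingHom.toAlgebra
  haveI := h
  induction z using TensorProduct.induction_on with
  | zero => exact ⟨0, 0, by simp⟩
  | tmul r a =>
    obtain ⟨n, a₀, ha⟩ := IsLocalization.Away.surj (S := A) x a
    refine ⟨n, r ⊗ₜ a₀, ?_⟩
    rw [Algebra.TensorProduct.map_tmul, Algebra.TensorProduct.tmul_pow, Algebra.TensorProduct.tmul_mul_tmul,
      Algebra.TensorProduct.map_tmul, AlgHom.coe_id, id_eq, id_eq, one_pow, one_mul]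
    congr 1
    rw [mul_comm]
    exact ha
  | add u v hu hv =>
    obtain ⟨m, a, ha⟩ := hu
    obtain ⟨n, b, hb⟩ := hv
    refine ⟨m + n, ((1 : R) ⊗ₜ[k] x) ^ n * a + ((1 : R) ⊗ₜ[k] x) ^ m * b, ?_⟩
    rw [map_add, map_mul, map_mul, map_pow, map_pow, ← ha, ← hb]
    ring

theorem map_restriction_injective (hx : ∀ a, x * a = 0 → a = 0)
    (h : letI := res.toRingHom.toAlgebra; IsLocalization.Away x A) :
    Function.Injective (Algebra.TensorProduct.map (AlgHom.id k R) res) := by
  letI := res.toRingHom.toAlgebra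
  haveI := h
  have hres : Function.Injective res := by
    refine IsLocalization.injective A (M := Submonoid.powers x) ?_
    rintro _ ⟨n, rfl⟩
    rw [mem_nonZeroDivisors_iff_left]
    induction n with
    | zero => simp
    | succ n ih =>
      intro a ha
      refine ih a (hx _ ?_)
      rw [← mul_assoc, ← pow_succ']
      exact ha
  exact Module.Flat.lTensor_preserves_injective_linearMap (M := R) res.toLinearMap hres

theorem eq_zero_of_mul_eq_zero {n : ℕ} (b : Fin n → A₀)
    (hb : Function.Bijective fun c : Fin n → Polynomial k => ∑ i, Polynomial.aeval x (c i) * b i)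
    (a : A₀) (ha : x * a = 0) : a = 0 := by
  obtain ⟨c, rfl⟩ := hb.2 a
  have h : (fun i => Polynomial.X * c i) = 0 := hb.1 (by
    simp only [map_mul, Polynomial.aeval_X, mul_assoc, ← Finset.mul_sum, Pi.zero_apply, map_zero,
      zero_mul, Finset.sum_const_zero]
    exact ha)
  have hc : c = 0 := funext fun i =>
    (mul_eq_zero.1 (congrFun h i)).resolve_left Polynomial.X_ne_zero
  simp [hc]

end Restriction

namespace Cover

variable (C : Cover k) (R : Type u) [CommRing R] [Algebra k R]

theorem resB₀_injective : Function.Injective (C.resB₀ R) :=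
  map_restriction_injective C.res₀ C.x R
    (eq_zero_of_mul_eq_zero C.x C.basis₀ C.basis₀_bijective) C.away₀

theorem resB₁_injective : Function.Injective (C.resB₁ R) :=
  map_restriction_injective C.res₁ C.y R
    (eq_zero_of_mul_eq_zero C.y C.basis₁ C.basis₁_bijective) C.away₁

theorem span_resB₀ : Submodule.span (C.B R) (Set.range (C.resB₀ R)) = ⊤ := by
  rw [eq_top_iff]
  rintro z -
  exact (mul_one z) ▸ Submodule.smul_mem _ z (Submodule.subset_span ⟨1, map_one _⟩)

theorem span_resB₁ : Submodule.span (C.B R) (Set.range (C.resB₁ R)) = ⊤ := by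
  rw [eq_top_iff]
  rintro z -
  exact (mul_one z) ▸ Submodule.smul_mem _ z (Submodule.subset_span ⟨1, map_one _⟩)

theorem resB₀_mul_resB₁ : C.resB₀ R (C.xB R) * C.resB₁ R (C.yB R) = 1 := by
  simp only [Cover.resB₀, Cover.resB₁, Cover.xB, Cover.yB, AlgHom.toRingHom_eq_coe, RingHom.coe_coe,
    Algebra.TensorProduct.map_tmul, Algebra.TensorProduct.tmul_mul_tmul, map_one, one_mul, C.x_mul_y]
  rfl

variable {R} {R' : Type u} [CommRing R'] [Algebra k R'] (φ : R →ₐ[k] R')

theorem mapB_resB₀ (b : C.B₀ R) : C.mapB φ (C.resB₀ R b) = C.resB₀ R' (C.mapB₀ φ b) := by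
  induction b using TensorProduct.induction_on with
  | zero => simp only [map_zero]
  | tmul r a => rfl
  | add u v hu hv => simp only [map_add, hu, hv]

theorem mapB_resB₁ (b : C.B₁ R) : C.mapB φ (C.resB₁ R b) = C.resB₁ R' (C.mapB₁ φ b) := by
  induction b using TensorProduct.induction_on with
  | zero => simp only [map_zero]
  | tmul r a => rfl
  | add u v hu hv => simp only [map_add, hu, hv]

theorem baseB_surjective : Function.Surjective (C.baseB R) := fun r =>
  ⟨r ⊗ₜ 1, by simp [Cover.baseB]⟩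

theorem baseB_mapB₀ (b : C.B₀ R) : C.baseB R' (C.mapB₀ φ b) = φ (C.baseB R b) := by
  induction b using TensorProduct.induction_on with
  | zero => simp only [map_zero]
  | tmul r a => simp [Cover.baseB, Cover.mapB₀]
  | add u v hu hv => simp only [map_add, hu, hv]

variable {R'' : Type u} [CommRing R''] [Algebra k R''] (ψ : R' →ₐ[k] R'')

theorem mapB₀_comp (b : C.B₀ R) : C.mapB₀ (ψ.comp φ) b = C.mapB₀ ψ (C.mapB₀ φ b) := by
  induction b using TensorProduct.induction_on with
  | zero => simp only [map_zero]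
  | tmul r a => rfl
  | add u v hu hv => simp only [map_add, hu, hv]

theorem mapB₁_comp (b : C.B₁ R) : C.mapB₁ (ψ.comp φ) b = C.mapB₁ ψ (C.mapB₁ φ b) := by
  induction b using TensorProduct.induction_on with
  | zero => simp only [map_zero]
  | tmul r a => rfl
  | add u v hu hv => simp only [map_add, hu, hv]

theorem mapB_comp (b : C.B R) : C.mapB (ψ.comp φ) b = C.mapB ψ (C.mapB φ b) := by
  induction b using TensorProduct.induction_on with
  | zero => simp only [map_zero]
  | tmul r a => rfl
  | add u v hu hv => simp only [map_add, hu, hv]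

theorem mapB₀_id (b : C.B₀ R) : C.mapB₀ (AlgHom.id k R) b = b := by
  induction b using TensorProduct.induction_on with
  | zero => simp only [map_zero]
  | tmul r a => rfl
  | add u v hu hv => simp only [map_add, hu, hv]

theorem mapB₁_id (b : C.B₁ R) : C.mapB₁ (AlgHom.id k R) b = b := by
  induction b using TensorProduct.induction_on with
  | zero => simp only [map_zero]
  | tmul r a => rfl
  | add u v hu hv => simp only [map_add, hu, hv]

theorem mapB_id (b : C.B R) : C.mapB (AlgHom.id k R) b = b := by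
  induction b using TensorProduct.induction_on with
  | zero => simp only [map_zero]
  | tmul r a => rfl
  | add u v hu hv => simp only [map_add, hu, hv]

end Cover

namespace Bundle

variable {C : Cover k} {R : Type u} [CommRing R] [Algebra k R] (E : Bundle C R)

theorem span_ι₀ : Submodule.span (C.B R) (Set.range E.ι₀) = ⊤ := by
  rw [eq_top_iff]
  rintro m -
  obtain ⟨n, a, ha⟩ := E.loc₀ m
  have hm : C.resB₁ R (C.yB R) ^ n • E.ι₀ a = m := by
    rw [← ha, smul_smul, ← mul_pow, mul_comm, C.resB₀_mul_resB₁, one_pow, one_smul]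
  rw [← hm]
  exact Submodule.smul_mem _ _ (Submodule.subset_span ⟨a, rfl⟩)

theorem span_ι₁ : Submodule.span (C.B R) (Set.range E.ι₁) = ⊤ := by
  rw [eq_top_iff]
  rintro m -
  obtain ⟨n, a, ha⟩ := E.loc₁ m
  have hm : C.resB₀ R (C.xB R) ^ n • E.ι₁ a = m := by
    rw [← ha, smul_smul, ← mul_pow, C.resB₀_mul_resB₁, one_pow, one_smul]
  rw [← hm]
  exact Submodule.smul_mem _ _ (Submodule.subset_span ⟨a, rfl⟩)

/-- A bundle from invertible modules and restrictions with spanning images. -/
def ofSpan {C : Cover k} {R : Type u} [CommRing R] [Algebra k R] (M₀ M₁ M : Type u)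
    [AddCommGroup M₀] [AddCommGroup M₁] [AddCommGroup M]
    [Module (C.B₀ R) M₀] [Module (C.B₁ R) M₁] [Module (C.B R) M] [Module.Invertible (C.B₀ R) M₀]
    [Module.Invertible (C.B₁ R) M₁] [Module.Invertible (C.B R) M]
    (ι₀ : M₀ →ₛₗ[C.resB₀ R] M) (ι₁ : M₁ →ₛₗ[C.resB₁ R] M)
    (h₀ : Submodule.span (C.B R) (Set.range ι₀) = ⊤)
    (h₁ : Submodule.span (C.B R) (Set.range ι₁) = ⊤) : Bundle C R where
  M₀ := M₀
  M₁ := M₁
  M := M
  ι₀ := ι₀
  ι₁ := ι₁
  inj₀ := Invert.injective_of_span (C.resB₀_injective R) ι₀ h₀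
  inj₁ := Invert.injective_of_span (C.resB₁_injective R) ι₁ h₁
  loc₀ m := by
    have hm : m ∈ Submodule.span (C.B R) (Set.range ι₀) := h₀ ▸ Submodule.mem_top
    induction hm using Submodule.span_induction with
    | mem z hz => obtain ⟨a, rfl⟩ := hz; exact ⟨0, a, by rw [pow_zero, one_smul]⟩
    | zero => exact ⟨0, 0, by rw [map_zero, smul_zero]⟩
    | add u v _ _ hu hv =>
      obtain ⟨p, a, ha⟩ := hu
      obtain ⟨n, b, hb⟩ := hv
      refine ⟨p + n, C.xB R ^ n • a + C.xB R ^ p • b, ?_⟩
      rw [map_add, LinearMap.map_smulₛₗ, LinearMap.map_smulₛₗ, ← ha, ← hb, map_pow, map_pow,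
        smul_smul, smul_smul, ← pow_add, ← pow_add, smul_add, add_comm n p]
    | smul c u _ hu =>
      obtain ⟨p, a, ha⟩ := hu
      obtain ⟨n, d, hd⟩ := exists_pow_mul_map C.res₀ C.x R C.away₀ c
      change C.resB₀ R (C.xB R) ^ n * c = C.resB₀ R d at hd
      refine ⟨n + p, d • a, ?_⟩
      rw [LinearMap.map_smulₛₗ, ← ha, ← hd, smul_smul, smul_smul, pow_add]
      ring_nf
  loc₁ m := by
    have hm : m ∈ Submodule.span (C.B R) (Set.range ι₁) := h₁ ▸ Submodule.mem_top
    induction hm using Submodule.span_induction with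
    | mem z hz => obtain ⟨a, rfl⟩ := hz; exact ⟨0, a, by rw [pow_zero, one_smul]⟩
    | zero => exact ⟨0, 0, by rw [map_zero, smul_zero]⟩
    | add u v _ _ hu hv =>
      obtain ⟨p, a, ha⟩ := hu
      obtain ⟨n, b, hb⟩ := hv
      refine ⟨p + n, C.yB R ^ n • a + C.yB R ^ p • b, ?_⟩
      rw [map_add, LinearMap.map_smulₛₗ, LinearMap.map_smulₛₗ, ← ha, ← hb, map_pow, map_pow,
        smul_smul, smul_smul, ← pow_add, ← pow_add, smul_add, add_comm n p]
    | smul c u _ hu =>
      obtain ⟨p, a, ha⟩ := hu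
      obtain ⟨n, d, hd⟩ := exists_pow_mul_map C.res₁ C.y R C.away₁ c
      change C.resB₁ R (C.yB R) ^ n * c = C.resB₁ R d at hd
      refine ⟨n + p, d • a, ?_⟩
      rw [LinearMap.map_smulₛₗ, ← ha, ← hd, smul_smul, smul_smul, pow_add]
      ring_nf

variable {R' : Type u} [CommRing R'] [Algebra k R'] {φ : R →ₐ[k] R'} {E}

/-- The map of overlaps of a pullback has spanning image. -/
theorem span_of_compat {E' : Bundle C R'} (f₀ : E.M₀ →ₛₗ[C.mapB₀ φ] E'.M₀)
    (f : E.M →ₛₗ[C.mapB φ] E'.M) (hs : Submodule.span (C.B₀ R') (Set.range f₀) = ⊤)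
    (hf : ∀ m, f (E.ι₀ m) = E'.ι₀ (f₀ m)) : Submodule.span (C.B R') (Set.range f) = ⊤ := by
  rw [eq_top_iff, ← span_range_comp _ hs E'.ι₀ E'.span_ι₀]
  refine Submodule.span_mono ?_
  rintro _ ⟨a, rfl⟩
  exact ⟨E.ι₀ a, hf a⟩

/-- The pairing of overlaps of a tensor product spans. -/
theorem span_pair_of_compat {E' F : Bundle C R} (μ₀ : E.M₀ →ₗ[C.B₀ R] E'.M₀ →ₗ[C.B₀ R] F.M₀)
    (μ : E.M →ₗ[C.B R] E'.M →ₗ[C.B R] F.M)
    (hs : Submodule.span (C.B₀ R) {z | ∃ a b, μ₀ a b = z} = ⊤)
    (hμ : ∀ a b, μ (E.ι₀ a) (E'.ι₀ b) = F.ι₀ (μ₀ a b)) :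
    Submodule.span (C.B R) {z | ∃ a b, μ a b = z} = ⊤ := by
  have hrange : Set.range (fun p : E.M₀ × E'.M₀ => μ₀ p.1 p.2) = {z | ∃ a b, μ₀ a b = z} := by
    ext z; simp
  rw [eq_top_iff, ← span_range_comp (fun p : E.M₀ × E'.M₀ => μ₀ p.1 p.2) (by rw [hrange, hs])
    F.ι₀ F.span_ι₀]
  refine Submodule.span_mono ?_
  rintro _ ⟨⟨a, b⟩, rfl⟩
  exact ⟨_, _, hμ a b⟩

end Bundle

end FLTAgent.JacRep
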