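import Fermat.Agent.JacRep.Defs
import Fermat.Agent.JacRep.Ops.Semilin
import Fermat.Agent.JacRep.Ops.Basics

/-!
# Twists by invertible modules of the base

`exists_twist_data` tensors the three modules of a bundle with an invertible module of the base.
The twist by the dual of the fibre along the base point is rigidified
(`exists_rigidifying_twist`), and a twist between rigidified bundles is an isomorphism
(`iso_of_twist`).
-/

set_option autoImplicit false
set_option linter.style.haveILetI false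
set_option linter.unusedSectionVars false

noncomputable section

open TensorProduct

universe u

namespace FLTAgent.JacRep

namespace Invert

section Twist

variable {R : Type u} [CommRing R] {B B' : Type u} [CommRing B] [CommRing B'] [Algebra R B]
  [Algebra R B'] {σ : B →+* B'} {M M' Q : Type u} [AddCommGroup M] [AddCommGroup M'] [AddCommGroup Q]
  [Module R M] [Module B M] [IsScalarTower R B M] [Module R M'] [Module B' M']
  [IsScalarTower R B' M'] [Module R Q]

/-- A semilinear map over the base tensored with a module of the base. -/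
theorem exists_tmulMap (hσ : ∀ r, σ (algebraMap R B r) = algebraMap R B' r) (f : M →ₛₗ[σ] M') :
    ∃ g : M ⊗[R] Q →ₛₗ[σ] M' ⊗[R] Q, (∀ a w, g (a ⊗ₜ w) = f a ⊗ₜ w) ∧
      (Submodule.span B' (Set.range f) = ⊤ → Submodule.span B' (Set.range g) = ⊤) := by
  let fR : M →ₗ[R] M' :=
    { toFun := f
      map_add' := map_add f
      map_smul' := fun r a => by
        rw [← algebraMap_smul B r a, LinearMap.map_smulₛₗ, hσ, algebraMap_smul]; rfl }
  let g : M ⊗[R] Q →ₛₗ[σ] M' ⊗[R] Q :=
    { toFun := fR.rTensor Q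
      map_add' := map_add _
      map_smul' := fun b z => by
        induction z using TensorProduct.induction_on with
        | zero => simp only [smul_zero, map_zero]
        | tmul a w =>
          rw [TensorProduct.smul_tmul', LinearMap.rTensor_tmul, LinearMap.rTensor_tmul]
          show f (b • a) ⊗ₜ[R] w = σ b • (f a ⊗ₜ[R] w)
          rw [LinearMap.map_smulₛₗ, TensorProduct.smul_tmul']
        | add u v hu hv => simp only [smul_add, map_add, hu, hv] }
  refine ⟨g, fun a w => rfl, fun hf => ?_⟩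
  rw [eq_top_iff]
  rintro z -
  induction z using TensorProduct.induction_on with
  | zero => exact zero_mem _
  | tmul m w =>
    have hm : m ∈ Submodule.span B' (Set.range f) := hf ▸ Submodule.mem_top
    induction hm using Submodule.span_induction with
    | mem z hz => obtain ⟨a, rfl⟩ := hz; exact Submodule.subset_span ⟨a ⊗ₜ w, rfl⟩
    | zero => rw [TensorProduct.zero_tmul]; exact zero_mem _
    | add u v _ _ hu hv => rw [TensorProduct.add_tmul]; exact add_mem hu hv
    | smul c u _ hu => rw [← TensorProduct.smul_tmul']; exact Submodule.smul_mem _ _ hu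
  | add u v hu hv => exact add_mem hu hv

/-- An invertible module tensored with an invertible module of the base is invertible. -/
theorem invertible_tmul [Module.Invertible B M] [Module.Invertible R Q] :
    Module.Invertible B (M ⊗[R] Q) :=
  Module.Invertible.congr (TensorProduct.AlgebraTensorModule.cancelBaseChange R B B M Q)

theorem span_tmul_top : Submodule.span B {z : M ⊗[R] Q | ∃ a w, a ⊗ₜ w = z} = ⊤ := by
  rw [eq_top_iff]
  rintro z -
  induction z using TensorProduct.induction_on with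
  | zero => exact zero_mem _
  | tmul a w => exact Submodule.subset_span ⟨a, w, rfl⟩
  | add u v hu hv => exact add_mem hu hv

end Twist

end Invert

namespace Bundle

open Invert

variable {k : Type u} [Field k] {C : Cover k} {R : Type u} [CommRing R] [Algebra k R]

theorem resB₀_algebraMap (r : R) :
    C.resB₀ R (algebraMap R (C.B₀ R) r) = algebraMap R (C.B R) r := by
  simp [Cover.resB₀, Algebra.TensorProduct.algebraMap_apply]

theorem resB₁_algebraMap (r : R) :
    C.resB₁ R (algebraMap R (C.B₁ R) r) = algebraMap R (C.B R) r := by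
  simp [Cover.resB₁, Algebra.TensorProduct.algebraMap_apply]

theorem baseB_algebraMap (r : R) : C.baseB R (algebraMap R (C.B₀ R) r) = r := by
  simp [Cover.baseB, Algebra.TensorProduct.algebraMap_apply]

/-- The twist, with its pairings. -/
theorem exists_twist_data (E : Bundle C R) (Q : Type u) [AddCommGroup Q] [Module R Q]
    [Module.Invertible R Q] (L : Type u) [AddCommGroup L] [Module R L]
    (ev : letI := E.rModule₀; E.M₀ →ₗ[R] Q →ₗ[R] L)
    (hev : ∀ (b : C.B₀ R) a w, letI := E.rModule₀; ev (b • a) w = C.baseB R b • ev a w) :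
    ∃ F : Bundle C R,
      letI := F.rModule₀; letI := F.rModule₁; letI := F.rModule
      ∃ (μ₀ : E.M₀ → Q →ₗ[R] F.M₀) (μ₁ : E.M₁ → Q →ₗ[R] F.M₁) (μ : E.M → Q →ₗ[R] F.M)
        (g : F.M₀ →ₛₗ[C.baseB R] L),
        (∀ a a' w, μ₀ (a + a') w = μ₀ a w + μ₀ a' w) ∧
        (∀ (b : C.B₀ R) a w, μ₀ (b • a) w = b • μ₀ a w) ∧
        (∀ a a' w, μ₁ (a + a') w = μ₁ a w + μ₁ a' w) ∧
        (∀ (b : C.B₁ R) a w, μ₁ (b • a) w = b • μ₁ a w) ∧
        (∀ a a' w, μ (a + a') w = μ a w + μ a' w) ∧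
        (∀ (b : C.B R) a w, μ (b • a) w = b • μ a w) ∧
        Submodule.span (C.B₀ R) {z | ∃ a w, μ₀ a w = z} = ⊤ ∧
        Submodule.span (C.B₁ R) {z | ∃ a w, μ₁ a w = z} = ⊤ ∧
          (∀ a w, μ (E.ι₀ a) w = F.ι₀ (μ₀ a w)) ∧ (∀ a w, μ (E.ι₁ a) w = F.ι₁ (μ₁ a w)) ∧
        ∀ a w, letI := E.rModule₀; g (μ₀ a w) = ev a w := by
  letI := E.rModule₀
  letI := E.rModule₁
  letI := E.rModule
  haveI : IsScalarTower R (C.B₀ R) E.M₀ := IsScalarTower.of_algebraMap_smul fun _ _ => rfl
  haveI : IsScalarTower R (C.B₁ R) E.M₁ := IsScalarTower.of_algebraMap_smul fun _ _ => rfl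
  haveI : IsScalarTower R (C.B R) E.M := IsScalarTower.of_algebraMap_smul fun _ _ => rfl
  haveI := invertible_tmul (R := R) (B := C.B₀ R) (M := E.M₀) (Q := Q)
  haveI := invertible_tmul (R := R) (B := C.B₁ R) (M := E.M₁) (Q := Q)
  haveI := invertible_tmul (R := R) (B := C.B R) (M := E.M) (Q := Q)
  obtain ⟨j₀, hj₀, hs₀⟩ := exists_tmulMap (Q := Q) resB₀_algebraMap E.ι₀
  obtain ⟨j₁, hj₁, hs₁⟩ := exists_tmulMap (Q := Q) resB₁_algebraMap E.ι₁
  let F : Bundle C R := ofSpan (E.M₀ ⊗[R] Q) (E.M₁ ⊗[R] Q) (E.M ⊗[R] Q) j₀ j₁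
    (hs₀ E.span_ι₀) (hs₁ E.span_ι₁)
  have hsmul : ∀ {B : Type u} [CommRing B] [Algebra R B] {M : Type u} [AddCommGroup M] [Module R M]
      [Module B M] [IsScalarTower R B M] (a : M) (r : R) (w : Q),
      a ⊗ₜ[R] (r • w) = algebraMap R B r • (a ⊗ₜ[R] w) := by
    intro B _ _ M _ _ _ _ a r w
    rw [TensorProduct.smul_tmul', algebraMap_smul, TensorProduct.smul_tmul]
  refine ⟨F, ?_⟩
  letI := F.rModule₀; letI := F.rModule₁; letI := F.rModule
  let μ₀ : E.M₀ → Q →ₗ[R] F.M₀ := fun a =>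
    { toFun := fun w => a ⊗ₜ[R] w
      map_add' := fun w w' => TensorProduct.tmul_add a w w'
      map_smul' := fun r w => hsmul (B := C.B₀ R) a r w }
  let μ₁ : E.M₁ → Q →ₗ[R] F.M₁ := fun a =>
    { toFun := fun w => a ⊗ₜ[R] w
      map_add' := fun w w' => TensorProduct.tmul_add a w w'
      map_smul' := fun r w => hsmul (B := C.B₁ R) a r w }
  let μ : E.M → Q →ₗ[R] F.M := fun a =>
    { toFun := fun w => a ⊗ₜ[R] w
      map_add' := fun w w' => TensorProduct.tmul_add a w w'
      map_smul' := fun r w => hsmul (B := C.B R) a r w }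
  let g : F.M₀ →ₛₗ[C.baseB R] L :=
    { toFun := fun z => TensorProduct.lift ev z
      map_add' := fun u v => map_add (TensorProduct.lift ev) u v
      map_smul' := fun b z => by
        induction z using TensorProduct.induction_on with
        | zero =>
          show TensorProduct.lift ev (b • (0 : E.M₀ ⊗[R] Q)) =
            C.baseB R b • TensorProduct.lift ev (0 : E.M₀ ⊗[R] Q)
          rw [smul_zero, map_zero, smul_zero]
        | tmul a w =>
          show TensorProduct.lift ev (b • (a ⊗ₜ[R] w)) = _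
          rw [TensorProduct.smul_tmul', TensorProduct.lift.tmul, TensorProduct.lift.tmul, hev]
        | add u v hu hv =>
          show TensorProduct.lift ev (b • (u + v : E.M₀ ⊗[R] Q)) =
            C.baseB R b • TensorProduct.lift ev (u + v : E.M₀ ⊗[R] Q)
          rw [smul_add, map_add, map_add, smul_add]
          exact congrArg₂ (· + ·) hu hv }
  exact ⟨μ₀, μ₁, μ, g, fun a a' w => TensorProduct.add_tmul a a' w,
    fun b a w => (TensorProduct.smul_tmul' b a w).symm, fun a a' w => TensorProduct.add_tmul a a' w,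
    fun b a w => (TensorProduct.smul_tmul' b a w).symm, fun a a' w => TensorProduct.add_tmul a a' w,
    fun b a w => (TensorProduct.smul_tmul' b a w).symm, span_tmul_top, span_tmul_top,
    fun a w => (hj₀ a w).symm, fun a w => (hj₁ a w).symm, fun a w => TensorProduct.lift.tmul a w⟩

/-- A twist by the dual of the fibre along the base point is rigidified. -/
theorem exists_rigidifying_twist (E : Bundle C R) :
    ∃ (Q : Type u) (_ : AddCommGroup Q) (_ : Module R Q) (_ : Module.Invertible R Q)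
      (F : Bundle C R),
      letI := F.rModule₀; letI := F.rModule₁; letI := F.rModule
      (∃ (μ₀ : E.M₀ → Q →ₗ[R] F.M₀) (μ₁ : E.M₁ → Q →ₗ[R] F.M₁) (μ : E.M → Q →ₗ[R] F.M),
        (∀ a a' w, μ₀ (a + a') w = μ₀ a w + μ₀ a' w) ∧
        (∀ (b : C.B₀ R) a w, μ₀ (b • a) w = b • μ₀ a w) ∧
        (∀ a a' w, μ₁ (a + a') w = μ₁ a w + μ₁ a' w) ∧
        (∀ (b : C.B₁ R) a w, μ₁ (b • a) w = b • μ₁ a w) ∧
        (∀ a a' w, μ (a + a') w = μ a w + μ a' w) ∧
        (∀ (b : C.B R) a w, μ (b • a) w = b • μ a w) ∧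
        Submodule.span (C.B₀ R) {z | ∃ a w, μ₀ a w = z} = ⊤ ∧
        Submodule.span (C.B₁ R) {z | ∃ a w, μ₁ a w = z} = ⊤ ∧
          (∀ a w, μ (E.ι₀ a) w = F.ι₀ (μ₀ a w)) ∧ ∀ a w, μ (E.ι₁ a) w = F.ι₁ (μ₁ a w)) ∧
      F.IsRigidified := by
  letI := E.rModule₀
  haveI : IsScalarTower R (C.B₀ R) E.M₀ := IsScalarTower.of_algebraMap_smul fun _ _ => rfl
  letI baseAlgebra : Algebra (C.B₀ R) R := (C.baseB R).toAlgebra
  let L := R ⊗[C.B₀ R] E.M₀
  have hmul : ∀ (b : C.B₀ R) (a : E.M₀),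
      (1 : R) ⊗ₜ[C.B₀ R] (b • a) = C.baseB R b • ((1 : R) ⊗ₜ[C.B₀ R] a) := fun b a => by
    rw [TensorProduct.tmul_smul, ← algebraMap_smul R b]
    rfl
  let ev : E.M₀ →ₗ[R] Module.Dual R L →ₗ[R] R :=
    { toFun := fun a => Module.Dual.eval R L ((1 : R) ⊗ₜ[C.B₀ R] a)
      map_add' := fun a a' => by rw [TensorProduct.tmul_add, map_add]
      map_smul' := fun r a => by
        rw [← algebraMap_smul (C.B₀ R) r a, hmul, baseB_algebraMap, map_smul]; rfl }
  obtain ⟨F, μ₀, μ₁, μ, g, h₁, h₂, h₃, h₄, h₅, h₆, h₇, h₈, h₉, h₁₀, hg⟩ :=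
    exists_twist_data E (Module.Dual R L) R ev fun b a w => by
      show w ((1 : R) ⊗ₜ[C.B₀ R] (b • a)) = _
      rw [hmul, map_smul]
      rfl
  refine ⟨Module.Dual R L, inferInstance, inferInstance, inferInstance, F,
    ⟨μ₀, μ₁, μ, h₁, h₂, h₃, h₄, h₅, h₆, h₇, h₈, h₉, h₁₀⟩, g, fun z => ?_⟩
  have hz : z ∈ Submodule.span R {z | ∃ (t : L) (q : Module.Dual R L), q t = z} := by
    rw [span_contract]; trivial
  induction hz using Submodule.span_induction with
  | mem z hz =>
    obtain ⟨t, q, rfl⟩ := hz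
    induction t using TensorProduct.induction_on with
    | zero => exact ⟨0, by rw [map_zero, map_zero]⟩
    | tmul r a =>
      obtain ⟨b, rfl⟩ := C.baseB_surjective r
      refine ⟨b • μ₀ a q, ?_⟩
      rw [LinearMap.map_smulₛₗ, hg]
      show C.baseB R b • q ((1 : R) ⊗ₜ[C.B₀ R] a) = q (C.baseB R b ⊗ₜ[C.B₀ R] a)
      rw [← map_smul, TensorProduct.smul_tmul', smul_eq_mul, mul_one]
    | add u v hu hv =>
      obtain ⟨a, ha⟩ := hu
      obtain ⟨b, hb⟩ := hv
      exact ⟨a + b, by rw [map_add, map_add, ha, hb]⟩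
  | zero => exact ⟨0, map_zero _⟩
  | add u v _ _ hu hv =>
    obtain ⟨a, rfl⟩ := hu
    obtain ⟨b, rfl⟩ := hv
    exact ⟨a + b, map_add _ _ _⟩
  | smul c u _ hu =>
    obtain ⟨a, rfl⟩ := hu
    obtain ⟨b, rfl⟩ := C.baseB_surjective c
    exact ⟨b • a, LinearMap.map_smulₛₗ g b a⟩

/-- A twist by the base which preserves rigidifiability is trivial. -/
theorem iso_of_twist {E F : Bundle C R} {Q : Type u} [AddCommGroup Q] [Module R Q]
    [Module.Invertible R Q]
    (h : letI := F.rModule₀; letI := F.rModule₁; letI := F.rModule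
      ∃ (μ₀ : E.M₀ → Q →ₗ[R] F.M₀) (μ₁ : E.M₁ → Q →ₗ[R] F.M₁) (μ : E.M → Q →ₗ[R] F.M),
        (∀ a a' w, μ₀ (a + a') w = μ₀ a w + μ₀ a' w) ∧
        (∀ (b : C.B₀ R) a w, μ₀ (b • a) w = b • μ₀ a w) ∧
        (∀ a a' w, μ₁ (a + a') w = μ₁ a w + μ₁ a' w) ∧
        (∀ (b : C.B₁ R) a w, μ₁ (b • a) w = b • μ₁ a w) ∧
        (∀ a a' w, μ (a + a') w = μ a w + μ a' w) ∧
        (∀ (b : C.B R) a w, μ (b • a) w = b • μ a w) ∧
        Submodule.span (C.B₀ R) {z | ∃ a w, μ₀ a w = z} = ⊤ ∧
        Submodule.span (C.B₁ R) {z | ∃ a w, μ₁ a w = z} = ⊤ ∧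
          (∀ a w, μ (E.ι₀ a) w = F.ι₀ (μ₀ a w)) ∧ ∀ a w, μ (E.ι₁ a) w = F.ι₁ (μ₁ a w))
    (hE : E.IsRigidified) (hF : F.IsRigidified) : E.Iso F := by
  letI := F.rModule₀
  letI := F.rModule₁
  letI := F.rModule
  obtain ⟨μ₀, μ₁, μ, ha₀, hb₀, ha₁, hb₁, ha, hb, hs₀, hs₁, hμ₀, hμ₁⟩ := h
  obtain ⟨r, hr⟩ := hE
  obtain ⟨s, hs⟩ := hF
  obtain ⟨m, hm⟩ := hr 1
  let h : Q →ₗ[R] R :=
    { toFun := fun q => s (μ₀ m q)
      map_add' := fun q q' => by rw [map_add, map_add]
      map_smul' := fun c q => by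
        rw [map_smul]
        show s (algebraMap R (C.B₀ R) c • μ₀ m q) = c • s (μ₀ m q)
        rw [LinearMap.map_smulₛₗ, baseB_algebraMap] }
  have hfactor : ∀ a q, s (μ₀ a q) = h (r a • q) := fun a q => by
    obtain ⟨g, hg⟩ := exists_lift r (by rw [hr.range_eq, Submodule.span_univ])
      { toFun := fun a => s (μ₀ a q)
        map_add' := fun a b => by rw [ha₀, map_add]
        map_smul' := fun b a => by rw [hb₀, LinearMap.map_smulₛₗ] }
    have h1 : g (r a) = r a • g 1 := by rw [← map_smul, smul_eq_mul, mul_one]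
    rw [map_smul]
    show s (μ₀ a q) = r a • s (μ₀ m q)
    have h2 : g (r a) = s (μ₀ a q) := hg a
    have h3 : g (r m) = s (μ₀ m q) := hg m
    rw [hm] at h3
    rw [← h2, h1, h3]
  have hsurj : Function.Surjective h := by
    intro z
    obtain ⟨x, rfl⟩ := hs z
    have hx : x ∈ Submodule.span (C.B₀ R) {z | ∃ a w, μ₀ a w = z} := hs₀ ▸ Submodule.mem_top
    induction hx using Submodule.span_induction with
    | mem z hz => obtain ⟨a, w, rfl⟩ := hz; exact ⟨r a • w, (hfactor a w).symm⟩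
    | zero => exact ⟨0, by rw [map_zero, map_zero]⟩
    | add u v _ _ hu hv =>
      obtain ⟨a, ha'⟩ := hu
      obtain ⟨b, hb'⟩ := hv
      exact ⟨a + b, by rw [map_add, map_add, ha', hb']⟩
    | smul c u _ hu =>
      obtain ⟨a, ha'⟩ := hu
      exact ⟨C.baseB R c • a, by rw [map_smul, ha', LinearMap.map_smulₛₗ]⟩
  have hbij := Module.Invertible.bijective_of_surjective hsurj
  obtain ⟨q₀, hq₀⟩ := hsurj 1
  have hgen : ∀ q, h q • q₀ = q := fun q => hbij.1 (by rw [map_smul, hq₀, smul_eq_mul, mul_one])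
  let e₀ : E.M₀ →ₗ[C.B₀ R] F.M₀ :=
    { toFun := fun a => μ₀ a q₀, map_add' := fun a b => ha₀ a b q₀, map_smul' := fun b a => hb₀ b a q₀ }
  let e₁ : E.M₁ →ₗ[C.B₁ R] F.M₁ :=
    { toFun := fun a => μ₁ a q₀, map_add' := fun a b => ha₁ a b q₀, map_smul' := fun b a => hb₁ b a q₀ }
  let e : E.M →ₗ[C.B R] F.M :=
    { toFun := fun a => μ a q₀, map_add' := fun a b => ha a b q₀, map_smul' := fun b a => hb b a q₀ }
  have key₀ : ∀ a w, μ₀ a w = e₀ (algebraMap R (C.B₀ R) (h w) • a) := fun a w => by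
    rw [map_smul]
    conv_lhs => rw [← hgen w, map_smul]
    rfl
  have key₁ : ∀ a w, μ₁ a w = e₁ (algebraMap R (C.B₁ R) (h w) • a) := fun a w => by
    rw [map_smul]
    conv_lhs => rw [← hgen w, map_smul]
    rfl
  have hsurj₀ : Function.Surjective e₀ := by
    rw [← LinearMap.range_eq_top, eq_top_iff, ← hs₀, Submodule.span_le]
    rintro _ ⟨a, w, rfl⟩
    exact ⟨_, (key₀ a w).symm⟩
  have hsurj₁ : Function.Surjective e₁ := by
    rw [← LinearMap.range_eq_top, eq_top_iff, ← hs₁, Submodule.span_le]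
    rintro _ ⟨a, w, rfl⟩
    exact ⟨_, (key₁ a w).symm⟩
  have hsurj' : Function.Surjective e := by
    refine surjective_of_span e F.span_ι₀ fun x => ?_
    obtain ⟨a, rfl⟩ := hsurj₀ x
    exact ⟨E.ι₀ a, hμ₀ a q₀⟩
  exact ⟨LinearEquiv.ofBijective e₀ (Module.Invertible.bijective_of_surjective hsurj₀),
    LinearEquiv.ofBijective e₁ (Module.Invertible.bijective_of_surjective hsurj₁),
    LinearEquiv.ofBijective e (Module.Invertible.bijective_of_surjective hsurj'),
    fun a => hμ₀ a q₀, fun a => hμ₁ a q₀⟩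

end Bundle

end FLTAgent.JacRep
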